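/-
S55 / 36c-FROB-FIN (helper98): a Frobenius element at `q`, globally (`frobQ q : G_ℚ`), locally
(`frobLoc q : Gal(ℚ̄_q/ℚ_q)`) and at a finite Galois level `L/ℚ` (`frobL q L : Gal(L/ℚ)`), in the
vocabulary of `Idele73.Basic`.  No unramifiedness hypothesis in this file.
-/
import Mathlib
import Fermat.Prelude.Def_GaloisRep_CompletionBridge
import Fermat.Prelude.Def_EllipticCurve_FrobeniusTrace
import Fermat.Agent.Lib.FrobeniusExists
import Fermat.Agent.S55.ProfinLoc80.Decomp
import Fermat.Agent.S55.UnrBridge42.Inertia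
import Fermat.Agent.S55.Idele73.Basic
import Fermat.Agent.S55.UnrExt93.Residue

set_option autoImplicit false

namespace Fermat.Agent.S55.FrobFin98

open Fermat.Agent.S55.Idele73.Basic Fermat.Agent.S55.ProfinLoc80 Fermat.Agent.S55.UnrBridge42

variable (q : ℕ) [Fact q.Prime]

/-! ### Frobenius elements at `padicPlace q` in norm language -/

/-- A Frobenius element at `padicPlace q` is congruent to the `q`-th power map on integral
elements, in the norm of `PadicAlgCl q`. -/
theorem norm_sub_pow_lt_of_isFrobeniusAt {σ : GQ} (h : (padicPlace q).IsFrobeniusAt σ q)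
    (x : Qbar) (hx : ‖padicEmbedding q x‖ ≤ 1) :
    ‖padicEmbedding q (σ x) - (padicEmbedding q x) ^ q‖ < 1 := by
  obtain ⟨hσ, hfrob⟩ := h
  have hxA : x ∈ padicPlace q := (mem_padicPlace_iff_norm q).mpr hx
  have h1 := hfrob (IsLocalRing.residue (padicPlace q) ⟨x, hxA⟩)
  rw [← IsLocalRing.ResidueField.residue_smul, ← map_pow, ← sub_eq_zero, ← map_sub,
    IsLocalRing.residue_eq_zero_iff, ← (padicPlace q).coe_mem_nonunits_iff] at h1
  have h2 : σ x - x ^ q ∈ (padicPlace q).nonunits := h1
  rw [mem_nonunits_padicPlace_iff, map_sub, map_pow] at h2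
  exact h2

/-- Conversely, an element of the decomposition group which is congruent to the `q`-th power map
is a Frobenius element. -/
theorem isFrobeniusAt_of_norm_sub_pow_lt {σ : GQ}
    (hσ : σ ∈ (padicPlace q).decompositionSubgroup ℚ)
    (h : ∀ x : Qbar, ‖padicEmbedding q x‖ ≤ 1 →
      ‖padicEmbedding q (σ x) - (padicEmbedding q x) ^ q‖ < 1) :
    (padicPlace q).IsFrobeniusAt σ q := by
  refine ⟨hσ, fun y => ?_⟩
  obtain ⟨a, rfl⟩ := IsLocalRing.residue_surjective y
  rw [← IsLocalRing.ResidueField.residue_smul, ← map_pow, ← sub_eq_zero, ← map_sub,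
    IsLocalRing.residue_eq_zero_iff, ← (padicPlace q).coe_mem_nonunits_iff]
  show σ (a : Qbar) - (a : Qbar) ^ q ∈ (padicPlace q).nonunits
  rw [mem_nonunits_padicPlace_iff, map_sub, map_pow]
  exact h a ((mem_padicPlace_iff_norm q).mp a.2)

/-! ### the chosen Frobenius elements -/

theorem exists_frobQ : ∃ σ : GQ, (padicPlace q).IsFrobeniusAt σ q :=
  Fermat.Agent.Lib.FrobeniusExists.exists_isFrobeniusAt (padicPlace q) Fact.out
    (liesOverPrime_padicPlace q)

/-- a chosen Frobenius element at `padicPlace q` in `G_ℚ`. -/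
noncomputable def frobQ : GQ := (exists_frobQ q).choose

theorem frobQ_spec : (padicPlace q).IsFrobeniusAt (frobQ q) q := (exists_frobQ q).choose_spec

theorem exists_frobLoc : ∃ φ : Gq q, localGaloisToGlobal q φ = frobQ q := by
  have h := (frobQ_spec q).mem_decompositionSubgroup
  rw [← range_localGaloisToGlobal] at h
  exact h

/-- a chosen Frobenius element in the local Galois group `Gal(ℚ̄_q/ℚ_q)` lifting `frobQ q`. -/
noncomputable def frobLoc : Gq q := (exists_frobLoc q).choose

theorem localGaloisToGlobal_frobLoc : localGaloisToGlobal q (frobLoc q) = frobQ q :=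
  (exists_frobLoc q).choose_spec

/-- A local automorphism whose global image is a Frobenius element at `padicPlace q` is congruent
to the `q`-th power map on the whole unit ball of `PadicAlgCl q` (density of `ι(ℚ̄)`). -/
theorem norm_map_sub_pow_lt {τ : Gq q}
    (h : (padicPlace q).IsFrobeniusAt (localGaloisToGlobal q τ) q) (y : PadicAlgCl q)
    (hy : ‖y‖ ≤ 1) : ‖τ y - y ^ q‖ < 1 := by
  obtain ⟨a, ha⟩ := exists_padicEmbedding_norm_sub_lt q y (ε := 1) one_pos
  have ha1 : ‖padicEmbedding q a‖ ≤ 1 := by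
    have : padicEmbedding q a = y + (padicEmbedding q a - y) := by ring
    rw [this]
    refine norm_add_le_one q hy ?_
    rw [← norm_neg, neg_sub]
    exact ha.le
  have h1 : ‖τ (padicEmbedding q a) - (padicEmbedding q a) ^ q‖ < 1 := by
    rw [← padicEmbedding_localGaloisToGlobal]
    exact norm_sub_pow_lt_of_isFrobeniusAt q h a ha1
  have hφy : ‖τ y‖ ≤ 1 := by rw [UnrExt93.norm_map]; exact hy
  have hyq : ‖y ^ q‖ ≤ 1 := by rw [norm_pow]; exact pow_le_one₀ (norm_nonneg _) hy
  have hφa : ‖τ (padicEmbedding q a)‖ ≤ 1 := by rw [UnrExt93.norm_map]; exact ha1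
  have haq : ‖(padicEmbedding q a) ^ q‖ ≤ 1 := by
    rw [norm_pow]; exact pow_le_one₀ (norm_nonneg _) ha1
  rw [← UnrExt93.red_eq_iff hφy hyq]
  have e1 : UnrExt93.red q (τ y) = UnrExt93.red q (τ (padicEmbedding q a)) := by
    rw [UnrExt93.red_eq_iff hφy hφa, ← map_sub, UnrExt93.norm_map]
    exact ha
  have e2 : UnrExt93.red q (τ (padicEmbedding q a)) =
      UnrExt93.red q ((padicEmbedding q a) ^ q) := (UnrExt93.red_eq_iff hφa haq).2 h1
  have e3 : UnrExt93.red q (padicEmbedding q a) = UnrExt93.red q y := by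
    rw [UnrExt93.red_eq_iff ha1 hy, ← norm_neg, neg_sub]
    exact ha
  rw [e1, e2, UnrExt93.red_pow ha1, e3, UnrExt93.red_pow hy]

/-- two local lifts of Frobenius elements at `padicPlace q` differ by an element of the inertia
group. -/
theorem inv_mul_mem_localInertia {τ τ' : Gq q}
    (h : (padicPlace q).IsFrobeniusAt (localGaloisToGlobal q τ) q)
    (h' : (padicPlace q).IsFrobeniusAt (localGaloisToGlobal q τ') q) :
    τ⁻¹ * τ' ∈ localInertia q := by
  rw [mem_localInertia]
  intro x hx
  have h1 := norm_map_sub_pow_lt q h x hx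
  have h2 := norm_map_sub_pow_lt q h' x hx
  have e : (τ⁻¹ * τ') x - x = τ⁻¹ (τ' x - τ x) := by
    rw [map_sub, AlgEquiv.mul_apply]
    congr 1
    exact (AlgEquiv.symm_apply_apply τ x).symm
  rw [e, UnrExt93.norm_map]
  have e2 : τ' x - τ x = (τ' x - x ^ q) - (τ x - x ^ q) := by ring
  rw [e2]
  exact norm_sub_lt_one q h2 h1

theorem isFrobeniusAt_frobLoc : (padicPlace q).IsFrobeniusAt (localGaloisToGlobal q (frobLoc q)) q := by
  rw [localGaloisToGlobal_frobLoc]
  exact frobQ_spec q

/-- `frobLoc q` is congruent to the `q`-th power map on the whole unit ball of `PadicAlgCl q`. -/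
theorem norm_frobLoc_sub_pow_lt' (y : PadicAlgCl q) (hy : ‖y‖ ≤ 1) :
    ‖frobLoc q y - y ^ q‖ < 1 :=
  norm_map_sub_pow_lt q (isFrobeniusAt_frobLoc q) y hy

/-- `frobLoc q` is congruent to the `q`-th power map on `ι(ℚ̄) ∩ 𝒪`. -/
theorem norm_frobLoc_sub_pow_lt (x : Qbar) (hx : ‖padicEmbedding q x‖ ≤ 1) :
    ‖frobLoc q (padicEmbedding q x) - (padicEmbedding q x) ^ q‖ < 1 :=
  norm_frobLoc_sub_pow_lt' q _ hx

/-- `frobLoc q` raises roots of unity of order prime to `q` to the `q`-th power. -/
theorem frobLoc_rootOfUnity {z : PadicAlgCl q} {m : ℕ} (hm : ¬ q ∣ m) (hz : z ^ m = 1) :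
    frobLoc q z = z ^ q := by
  have hm0 : m ≠ 0 := by rintro rfl; exact hm (dvd_zero q)
  have hz1 : ‖z‖ = 1 := UnrExt93.norm_eq_one_of_pow_eq_one hm0 hz
  refine UnrExt93.eq_of_pow_eq_one_of_norm_sub_lt hm ?_ ?_
    (norm_frobLoc_sub_pow_lt' q z hz1.le)
  · rw [← map_pow, hz, map_one]
  · rw [← pow_mul, mul_comm, pow_mul, hz, one_pow]

/-! ### Frobenius at a finite level -/

section level

variable (L : IntermediateField ℚ Qbar) [Normal ℚ L]

/-- THE Frobenius of the level `L` at `q` (canonical when `L` is unramified at `q`, see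
`Cyclic.resL_eq_frobL`). -/
noncomputable def frobL : GalL L := resL L (frobQ q)

theorem frobL_def : frobL q L = resL L (frobQ q) := rfl

theorem frobL_eq_locHom : frobL q L = locHom q L (frobLoc q) := by
  rw [frobL, locHom, MonoidHom.comp_apply, localGaloisToGlobal_frobLoc]

theorem frobL_mem_range : frobL q L ∈ (locHom q L).range :=
  ⟨frobLoc q, (frobL_eq_locHom q L).symm⟩

/-- compatibility with change of level: any `r` compatible with the restriction maps from `G_ℚ`
sends Frobenius to Frobenius. -/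
theorem map_frobL {L₀ : IntermediateField ℚ Qbar} [Normal ℚ L₀] (r : GalL L →* GalL L₀)
    (hr : r.comp (resL L) = resL L₀) : r (frobL q L) = frobL q L₀ := by
  rw [frobL, frobL, ← hr, MonoidHom.comp_apply]

theorem iotaL_frobL (x : L) : iotaL q L (frobL q L x) = frobLoc q (iotaL q L x) := by
  rw [frobL_eq_locHom, iotaL_locHom]

/-- the Frobenius congruence at level `L`. -/
theorem norm_frobL_sub_pow_lt (x : L) (hx : ‖iotaL q L x‖ ≤ 1) :
    ‖iotaL q L (frobL q L x) - (iotaL q L x) ^ q‖ < 1 := by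
  rw [iotaL_frobL]
  exact norm_frobLoc_sub_pow_lt' q _ hx

end level

end Fermat.Agent.S55.FrobFin98
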