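/-
S55 / 36c-FROB-FIN (helper98): for a finite Galois level `L/ℚ` unramified at `q`, the image of
the local Galois group in `Gal(L/ℚ)` (the decomposition group) is cyclic, generated by the Frobenius
`frobL q L`, and every Frobenius element at `padicPlace q` restricts to `frobL q L`.
-/
import Mathlib
import Fermat.Agent.S55.FrobFin98.Basic
import Fermat.Agent.S55.Idele73.Local
import Fermat.Agent.S55.UnrBridge42.Global
import Fermat.Agent.S55.UnrExt93.Unr

set_option autoImplicit false

namespace Fermat.Agent.S55.FrobFin98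

open Fermat.Agent.S55.Idele73.Basic Fermat.Agent.S55.ProfinLoc80 Fermat.Agent.S55.UnrBridge42
open Fermat.Agent.S55.UnrExt93 (red kΩ resField resCard unr)

variable (q : ℕ) [Fact q.Prime]

/-! ### the residue field of `ℚ_q` has `q` elements -/

theorem exists_nat_norm_sub_lt (x : ℚ_[q]) (hx : ‖x‖ ≤ 1) :
    ∃ n : ℕ, n < q ∧ ‖(algebraMap ℚ_[q] (PadicAlgCl q) x) - (n : PadicAlgCl q)‖ < 1 := by
  obtain ⟨z, hz⟩ : ∃ z : ℤ_[q], (z : ℚ_[q]) = x := ⟨⟨x, hx⟩, rfl⟩
  obtain ⟨n, hnq, hn⟩ := PadicInt.exists_mem_range (p := q) z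
  refine ⟨n, hnq, ?_⟩
  rw [IsLocalRing.mem_maximalIdeal, PadicInt.mem_nonunits, PadicInt.norm_def, PadicInt.coe_sub,
    PadicInt.coe_natCast, hz] at hn
  have h1 : (algebraMap ℚ_[q] (PadicAlgCl q) x) - (n : PadicAlgCl q) =
      algebraMap ℚ_[q] (PadicAlgCl q) (x - (n : ℚ_[q])) := by
    rw [map_sub, map_natCast]
  rw [h1, PadicAlgCl.norm_extends]
  exact hn

theorem resCard_bot : resCard q (⊥ : IntermediateField ℚ_[q] (PadicAlgCl q)) = q := by
  classical
  have hsub : ((resField q (⊥ : IntermediateField ℚ_[q] (PadicAlgCl q)) : Subfield (kΩ q)) :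
      Set (kΩ q)) ⊆ (fun n : ℕ => (n : kΩ q)) '' (Finset.range q : Set ℕ) := by
    rintro a ha
    obtain ⟨x, hxK, hx, rfl⟩ := UnrExt93.mem_resField.1 ha
    obtain ⟨y, rfl⟩ := IntermediateField.mem_bot.1 hxK
    have hy : ‖y‖ ≤ 1 := by rwa [PadicAlgCl.norm_extends] at hx
    obtain ⟨n, hnq, hn⟩ := exists_nat_norm_sub_lt q y hy
    refine ⟨n, Finset.mem_coe.2 (Finset.mem_range.2 hnq), ?_⟩
    show (n : kΩ q) = _
    rw [← UnrExt93.red_natCast]
    exact ((UnrExt93.red_eq_iff hx (UnrExt93.norm_natCast_le_one n)).2 hn).symm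
  have hle : resCard q (⊥ : IntermediateField ℚ_[q] (PadicAlgCl q)) ≤ q := by
    have h1 : Nat.card (resField q (⊥ : IntermediateField ℚ_[q] (PadicAlgCl q))) =
        ((resField q (⊥ : IntermediateField ℚ_[q] (PadicAlgCl q)) : Subfield (kΩ q)) :
          Set (kΩ q)).ncard := Nat.card_coe_set_eq _
    have hfin : ((fun n : ℕ => (n : kΩ q)) '' (Finset.range q : Set ℕ)).Finite :=
      (Finset.finite_toSet _).image _
    calc resCard q (⊥ : IntermediateField ℚ_[q] (PadicAlgCl q)) = _ := h1
      _ ≤ ((fun n : ℕ => (n : kΩ q)) '' (Finset.range q : Set ℕ)).ncard :=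
        Set.ncard_le_ncard hsub hfin
      _ ≤ (Finset.range q : Set ℕ).ncard := Set.ncard_image_le (Finset.finite_toSet _)
      _ = q := by rw [Set.ncard_coe_finset, Finset.card_range]
  obtain ⟨a, ha, h⟩ := UnrExt93.resCard_pos_pow (⊥ : IntermediateField ℚ_[q] (PadicAlgCl q))
  have hq1 : 1 < q := (Fact.out : q.Prime).one_lt
  have ha1 : a ≤ 1 := by
    rw [h] at hle
    have : q ^ a ≤ q ^ 1 := by simpa using hle
    exact (Nat.pow_le_pow_iff_right hq1).1 this
  have : a = 1 := le_antisymm ha1 ha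
  rw [h, this, pow_one]

/-! ### levels unramified at `q` -/

section level

variable (L : IntermediateField ℚ Qbar) [Normal ℚ L]

/-- the level `L` is unramified at `q`: `ℚ_q(ι L) ⊆ ℚ_q^{unr}`. -/
def IsUnrAt : Prop := localLevel q L ≤ maxUnr q

omit [Normal ℚ L] in
theorem isUnrAt_of_isUnramifiedOutside {S : Finset Nat.Primes} (hL : L.IsUnramifiedOutside S)
    (hq : (⟨q, Fact.out⟩ : Nat.Primes) ∉ S) : IsUnrAt q L :=
  localLevel_le_maxUnr' hL q hq

variable {q L}

/-- inertia acts trivially on a level unramified at `q`. -/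
theorem locHom_eq_one_of_mem_localInertia (h : IsUnrAt q L) {τ : Gq q}
    (hτ : τ ∈ localInertia q) : locHom q L τ = 1 := by
  have h1 : τ ∈ (localLevel q L).fixingSubgroup := (le_maxUnr_iff q _).1 h hτ
  rw [mem_fixingSubgroup_localLevel_iff, IntermediateField.mem_fixingSubgroup_iff] at h1
  ext x
  rw [locHom, MonoidHom.comp_apply, resL_apply, AlgEquiv.one_apply]
  exact h1 x x.2

/-- **every element of the decomposition group of an unramified level is a power of Frobenius.** -/
theorem exists_pow_eq [FiniteDimensional ℚ L] (h : IsUnrAt q L) (τ : Gq q) :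
    ∃ i : ℕ, locHom q L τ = frobL q L ^ i := by
  have : FiniteDimensional ℚ_[q] (localLevel q L) :=
    Fermat.Agent.S55.Idele73.Local.finiteDimensional_Elev q L
  obtain ⟨m, ζ, hm0, hmq, hζ, hle⟩ := exists_le_adjoin_rootOfUnity q (localLevel q L) h
  have hn : 0 < Nat.totient m := Nat.totient_pos.2 hm0
  have hQ : resCard q (⊥ : IntermediateField ℚ_[q] (PadicAlgCl q)) = q := resCard_bot q
  have hdvd : m ∣ q ^ Nat.totient m - 1 := by
    have h1 : q ^ Nat.totient m ≡ 1 [MOD m] := Nat.ModEq.pow_totient hmq.symm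
    exact (Nat.modEq_iff_dvd' (Nat.one_le_pow _ _ (Fact.out : q.Prime).pos)).1 h1.symm
  have hζ1 : ζ ^ (resCard q (⊥ : IntermediateField ℚ_[q] (PadicAlgCl q)) ^ Nat.totient m - 1)
      = 1 := by
    rw [hQ]
    obtain ⟨c, hc⟩ := hdvd
    rw [hc, pow_mul, hζ.pow_eq_one, one_pow]
  have hζmem : ζ ∈ unr q ⊥ (Nat.totient m) := UnrExt93.mem_unr_of_pow_eq_one ⊥ _ hζ1
  have hE : localLevel q L ≤ unr q ⊥ (Nat.totient m) :=
    hle.trans (IntermediateField.adjoin_simple_le_iff.2 hζmem)
  have hφ : ∀ z : PadicAlgCl q,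
      z ^ (resCard q (⊥ : IntermediateField ℚ_[q] (PadicAlgCl q)) ^ Nat.totient m - 1) = 1 →
      frobLoc q z = z ^ resCard q (⊥ : IntermediateField ℚ_[q] (PadicAlgCl q)) := by
    intro z hz
    have hnd := UnrExt93.not_dvd_resCard_pow_sub_one
      (⊥ : IntermediateField ℚ_[q] (PadicAlgCl q)) _ hn
    rw [hQ] at hz hnd ⊢
    exact frobLoc_rootOfUnity q hnd hz
  have hbot : ∀ σ : Gq q, σ ∈ (⊥ : IntermediateField ℚ_[q] (PadicAlgCl q)).fixingSubgroup := by
    intro σ
    rw [IntermediateField.mem_fixingSubgroup_iff]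
    intro x hx
    obtain ⟨y, rfl⟩ := IntermediateField.mem_bot.1 hx
    exact σ.commutes y
  obtain ⟨i, -, hi⟩ := (UnrExt93.cyclic (K := ⊥) hn (hbot _) hφ).1 τ (hbot τ)
  refine ⟨i, ?_⟩
  rw [frobL_eq_locHom, ← map_pow]
  ext x
  apply Subtype.ext_iff.1
  apply iotaL_injective q L
  rw [iotaL_locHom, iotaL_locHom]
  exact hi _ (hE (padicEmbedding_mem_localLevel q L x))

/-- **The decomposition group of a level unramified at `q` is cyclic, generated by Frobenius.** -/
theorem range_locHom_eq_zpowers [FiniteDimensional ℚ L] (h : IsUnrAt q L) :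
    (locHom q L).range = Subgroup.zpowers (frobL q L) := by
  apply le_antisymm
  · rintro _ ⟨τ, rfl⟩
    obtain ⟨i, hi⟩ := exists_pow_eq h τ
    rw [hi]
    exact Subgroup.npow_mem_zpowers _ i
  · rw [Subgroup.zpowers_le]
    exact frobL_mem_range q L

theorem isCyclic_range [FiniteDimensional ℚ L] (h : IsUnrAt q L) :
    IsCyclic (locHom q L).range := by
  rw [range_locHom_eq_zpowers h]
  infer_instance

theorem orderOf_frobL [FiniteDimensional ℚ L] (h : IsUnrAt q L) :
    orderOf (frobL q L) = Nat.card (locHom q L).range := by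
  rw [range_locHom_eq_zpowers h, Nat.card_zpowers]

/-- **Independence of the choice:** on a level unramified at `q`, EVERY Frobenius element at
`padicPlace q` restricts to `frobL q L`. -/
theorem resL_eq_frobL (h : IsUnrAt q L) {σ : GQ} (hσ : (padicPlace q).IsFrobeniusAt σ q) :
    resL L σ = frobL q L := by
  have hdec := hσ.mem_decompositionSubgroup
  rw [← range_localGaloisToGlobal] at hdec
  obtain ⟨τ, rfl⟩ := hdec
  have hin := inv_mul_mem_localInertia q (isFrobeniusAt_frobLoc q) hσ
  have h1 := locHom_eq_one_of_mem_localInertia h hin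
  rw [map_mul, map_inv, inv_mul_eq_one] at h1
  rw [frobL_eq_locHom, h1]
  rfl

/-- the same for local lifts. -/
theorem locHom_eq_frobL (h : IsUnrAt q L) {τ : Gq q}
    (hτ : (padicPlace q).IsFrobeniusAt (localGaloisToGlobal q τ) q) :
    locHom q L τ = frobL q L :=
  resL_eq_frobL h hτ

/-- the decomposition group at `q` of the level `L` has order `[ℚ_q(ι L) : ℚ_q]`
(no unramifiedness needed). -/
theorem card_range_locHom [FiniteDimensional ℚ L] :
    Nat.card (locHom q L).range = Module.finrank ℚ_[q] (localLevel q L) := by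
  have : FiniteDimensional ℚ_[q] (localLevel q L) :=
    Fermat.Agent.S55.Idele73.Local.finiteDimensional_Elev q L
  have hgal : IsGalois ℚ_[q] (localLevel q L) :=
    { to_normal := Fermat.Agent.S55.Idele73.Local.normal_Elev q L }
  have h1 : (locHom q L).range = (Fermat.Agent.S55.Idele73.Local.jE q L).range := by
    rw [← Fermat.Agent.S55.Idele73.Local.jE_comp_resE, MonoidHom.range_comp,
      MonoidHom.range_eq_top.2 (Fermat.Agent.S55.Idele73.Local.resE_surjective q L),
      ← MonoidHom.range_eq_map]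
  rw [h1, ← IsGalois.card_aut_eq_finrank ℚ_[q] (localLevel q L)]
  exact (Nat.card_congr (MonoidHom.ofInjective
    (Fermat.Agent.S55.Idele73.Local.jE_injective q L)).toEquiv).symm

/-- the order of Frobenius is the local degree. -/
theorem orderOf_frobL_eq_finrank [FiniteDimensional ℚ L] (h : IsUnrAt q L) :
    orderOf (frobL q L) = Module.finrank ℚ_[q] (localLevel q L) := by
  rw [orderOf_frobL h, card_range_locHom]

end level

end Fermat.Agent.S55.FrobFin98
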