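/-
S55 / 36c-FROB-UNIQUE (helper98): UNIQUENESS of the Frobenius at finite level.
For a finite Galois level `L/ℚ` unramified at `q`, `frobL q L` is the ONLY element `τ` of
`Gal(L/ℚ)` with `τ z ≡ z ^ q` modulo the chosen place for all `z` integral at the place; in
conjugated form: an element `σ` acting as the `q`-Frobenius at the place `g` (the prime
`PlaceCount50.primeAt q L g`) satisfies `g σ g⁻¹ = frobL q L`.  No lift to `Gal(ℚ̄/ℚ)` is needed.
-/
import Mathlib
import Fermat.Agent.S55.FrobFin98.Cyclic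
import Fermat.Agent.S55.PlaceCount50.Dict
import Fermat.Agent.S55.UnrMax66.Max

set_option autoImplicit false
set_option linter.unusedSectionVars false
set_option linter.style.haveILetI false

namespace Fermat.Agent.S55.FrobFin98

open Fermat.Agent.S55.Idele73.Basic Fermat.Agent.S55.ProfinLoc80 Fermat.Agent.S55.UnrBridge42
open Fermat.Agent.S55.UnrExt93 (resCard unr)
open Fermat.Agent.S55.LocField17 (ramIdx resDeg)
open NumberField IsDedekindDomain
open scoped Pointwise

variable {q : ℕ} [Fact q.Prime] {L : IntermediateField ℚ Qbar} [Normal ℚ L]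

/-! ### the local level of an unramified level is `ℚ_q(μ_{q^f - 1})` -/

/-- an unramified local level lies in some `ℚ_q(μ_{q^n-1})`. -/
theorem exists_le_unr_bot [FiniteDimensional ℚ L] (h : IsUnrAt q L) :
    ∃ n : ℕ, 0 < n ∧ localLevel q L ≤ unr q ⊥ n := by
  have : FiniteDimensional ℚ_[q] (localLevel q L) :=
    Fermat.Agent.S55.Idele73.Local.finiteDimensional_Elev q L
  obtain ⟨m, ζ, hm0, hmq, hζ, hle⟩ := exists_le_adjoin_rootOfUnity q (localLevel q L) h
  have hn : 0 < Nat.totient m := Nat.totient_pos.2 hm0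
  have hQ : resCard q (⊥ : IntermediateField ℚ_[q] (PadicAlgCl q)) = q := resCard_bot q
  have hdvd : m ∣ q ^ Nat.totient m - 1 := by
    have h1 : q ^ Nat.totient m ≡ 1 [MOD m] := Nat.ModEq.pow_totient hmq.symm
    exact (Nat.modEq_iff_dvd' (Nat.one_le_pow _ _ (Fact.out : q.Prime).pos)).1 h1.symm
  have hζ1 : ζ ^ (resCard q (⊥ : IntermediateField ℚ_[q] (PadicAlgCl q)) ^ Nat.totient m - 1)
      = 1 := by
    rw [hQ]
    obtain ⟨c, hc⟩ := hdvd
    rw [hc, pow_mul, hζ.pow_eq_one, one_pow]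
  have hζmem : ζ ∈ unr q ⊥ (Nat.totient m) := UnrExt93.mem_unr_of_pow_eq_one ⊥ _ hζ1
  exact ⟨Nat.totient m, hn, hle.trans (IntermediateField.adjoin_simple_le_iff.2 hζmem)⟩

/-- **an unramified local level is `ℚ_q(μ_{q^f-1})`**, `f` its residue degree. -/
theorem exists_localLevel_eq_unr [FiniteDimensional ℚ L] (h : IsUnrAt q L) :
    ∃ f : ℕ, 0 < f ∧ localLevel q L = unr q ⊥ f := by
  haveI : FiniteDimensional ℚ_[q] (localLevel q L) :=
    Fermat.Agent.S55.Idele73.Local.finiteDimensional_Elev q L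
  obtain ⟨n, hn, hE⟩ := exists_le_unr_bot h
  haveI : FiniteDimensional ℚ_[q] (unr q (⊥ : IntermediateField ℚ_[q] (PadicAlgCl q)) n) :=
    UnrExt93.finiteDimensional_unr hn
  have hb : (⊥ : IntermediateField ℚ_[q] (PadicAlgCl q)) ≤ localLevel q L := bot_le
  have e1 := Fermat.Agent.S55.UnrMax66.ramIdx_trans hb hE
  have e2 : ramIdx (hb.trans hE) = 1 :=
    Fermat.Agent.S55.UnrMax66.ramIdx_unr (K := (⊥ : IntermediateField ℚ_[q] (PadicAlgCl q))) hn
  rw [e2] at e1
  have he : ramIdx hb = 1 := Nat.eq_one_of_mul_eq_one_right e1.symm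
  exact ⟨resDeg hb, Fermat.Agent.S55.LocField17.resDeg_pos hb,
    Fermat.Agent.S55.UnrMax66.eq_unr_of_ramIdx_eq_one hb he⟩

/-! ### elements acting trivially on the residue field of an unramified level -/

/-- an automorphism moving every integral element of the unramified local level `E` by less than
`1` fixes `E`. -/
theorem mem_fixingSubgroup_localLevel_of_norm_sub_lt [FiniteDimensional ℚ L] (h : IsUnrAt q L)
    (r : Gq q) (hr : ∀ y ∈ localLevel q L, ‖y‖ ≤ 1 → ‖r y - y‖ < 1) :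
    r ∈ (localLevel q L).fixingSubgroup := by
  obtain ⟨f, hf, hEf⟩ := exists_localLevel_eq_unr h
  have hQ : resCard q (⊥ : IntermediateField ℚ_[q] (PadicAlgCl q)) = q := resCard_bot q
  have hunr : unr q (⊥ : IntermediateField ℚ_[q] (PadicAlgCl q)) f =
      IntermediateField.adjoin ℚ_[q] {z : PadicAlgCl q | z ^ (q ^ f - 1) = 1} := by
    unfold unr
    rw [bot_sup_eq, hQ]
  rw [hEf, hunr]
  apply mem_fixingSubgroup_adjoin_of_forall
  intro z hz
  have hz1 : z ^ (q ^ f - 1) = 1 := hz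
  have hN0 : 0 < q ^ f - 1 := by
    have : 2 ≤ q ^ f := by
      calc 2 ≤ q := (Fact.out : q.Prime).two_le
        _ = q ^ 1 := (pow_one q).symm
        _ ≤ q ^ f := Nat.pow_le_pow_right (Fact.out : q.Prime).pos hf
    omega
  have hcop : (q ^ f - 1).Coprime q := by
    have hnd := UnrExt93.not_dvd_resCard_pow_sub_one
      (⊥ : IntermediateField ℚ_[q] (PadicAlgCl q)) f hf
    rw [hQ] at hnd
    exact ((Nat.Prime.coprime_iff_not_dvd (Fact.out : q.Prime)).2 hnd).symm
  have hznorm : ‖z‖ = 1 := norm_eq_one_of_pow_eq_one q hN0 hz1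
  have hzE : z ∈ localLevel q L := by
    rw [hEf, hunr]
    exact IntermediateField.subset_adjoin _ _ hz
  have h1 := hr z hzE hznorm.le
  have hz0 : z ≠ 0 := by
    intro h0
    rw [h0, norm_zero] at hznorm
    exact zero_ne_one hznorm
  have hξ : (r z * z⁻¹) ^ (q ^ f - 1) = 1 := by
    rw [mul_pow, ← map_pow, hz1, map_one, one_mul, inv_pow, hz1, inv_one]
  have hlt : ‖r z * z⁻¹ - 1‖ < 1 := by
    have : r z * z⁻¹ - 1 = (r z - z) * z⁻¹ := by
      field_simp
    rw [this, norm_mul, norm_inv, hznorm, inv_one, mul_one]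
    exact h1
  have := eq_one_of_norm_sub_one_lt q hcop hξ hlt
  field_simp at this
  exact this

/-! ### uniqueness -/

private lemma norm_sub_lt_of {a b c : PadicAlgCl q} (h1 : ‖a - c‖ < 1) (h2 : ‖b - c‖ < 1) :
    ‖a - b‖ < 1 := by
  have : a - b = (a - c) - (b - c) := by ring
  rw [this]
  exact norm_sub_lt_one q h1 h2

/-- an element of `Gal(L/ℚ)` preserving the valuation ring of the chosen place lies in the
decomposition group. -/
theorem mem_range_locHom_of_norm_le [FiniteDimensional ℚ L] (τ : GalL L)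
    (hτ : ∀ z : L, ‖iotaL q L z‖ ≤ 1 → ‖iotaL q L (τ z)‖ ≤ 1) : τ ∈ (locHom q L).range := by
  have hpow : ∀ j : ℕ, ∀ z : L, ‖iotaL q L z‖ ≤ 1 → ‖iotaL q L ((τ ^ j) z)‖ ≤ 1 := by
    intro j
    induction j with
    | zero => intro z hz; simpa using hz
    | succ j ih =>
      intro z hz
      rw [pow_succ', AlgEquiv.mul_apply]
      exact hτ _ (ih z hz)
  haveI : Finite (GalL L) := inferInstance
  have hk : 0 < orderOf τ := orderOf_pos τ
  have hinv : τ⁻¹ = τ ^ (orderOf τ - 1) := by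
    rw [eq_comm, ← mul_eq_one_iff_eq_inv, ← pow_succ, Nat.sub_add_cancel hk, pow_orderOf_eq_one]
  rw [Fermat.Agent.S55.PlaceCount50.range_locHom, ValuationSubring.decompositionSubgroup,
    MulAction.mem_stabilizer_iff]
  apply SetLike.ext
  intro y
  rw [ValuationSubring.mem_pointwise_smul_iff_inv_smul_mem,
    Fermat.Agent.S55.PlaceCount50.mem_valSub_iff, Fermat.Agent.S55.PlaceCount50.mem_valSub_iff,
    AlgEquiv.smul_def]
  constructor
  · intro hy
    have := hτ _ hy
    rwa [← AlgEquiv.mul_apply, mul_inv_cancel, AlgEquiv.one_apply] at this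
  · intro hy
    rw [hinv]
    exact hpow _ y hy

/-- **(U1) uniqueness of the Frobenius at the base place**, among ALL elements of `Gal(L/ℚ)`. -/
theorem eq_frobL_of_norm_sub_pow_lt [FiniteDimensional ℚ L] (h : IsUnrAt q L) (τ : GalL L)
    (hτ : ∀ z : L, ‖iotaL q L z‖ ≤ 1 → ‖iotaL q L (τ z) - iotaL q L z ^ q‖ < 1) :
    τ = frobL q L := by
  have hle : ∀ z : L, ‖iotaL q L z‖ ≤ 1 → ‖iotaL q L (τ z)‖ ≤ 1 := by
    intro z hz
    have h1 := hτ z hz
    have h2 : ‖iotaL q L z ^ q‖ ≤ 1 := by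
      rw [norm_pow]; exact pow_le_one₀ (norm_nonneg _) hz
    have : iotaL q L (τ z) = (iotaL q L (τ z) - iotaL q L z ^ q) + iotaL q L z ^ q := by ring
    rw [this]
    exact norm_add_le_one q h1.le h2
  obtain ⟨t, rfl⟩ := mem_range_locHom_of_norm_le τ hle
  set r : Gq q := (frobLoc q)⁻¹ * t with hrdef
  -- `r` moves the integral elements of `ι L` by less than `1`
  have hr0 : ∀ x : L, ‖iotaL q L x‖ ≤ 1 → ‖r (iotaL q L x) - iotaL q L x‖ < 1 := by
    intro x hx
    have h1 := hτ x hx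
    rw [iotaL_locHom] at h1
    have h2 := norm_frobLoc_sub_pow_lt' q (iotaL q L x) hx
    have h3 := norm_sub_lt_of h1 h2
    have e : r (iotaL q L x) - iotaL q L x =
        (frobLoc q)⁻¹ (t (iotaL q L x) - frobLoc q (iotaL q L x)) := by
      rw [map_sub, hrdef, AlgEquiv.mul_apply, ← AlgEquiv.mul_apply (frobLoc q)⁻¹ (frobLoc q),
        inv_mul_cancel, AlgEquiv.one_apply]
    rw [e, norm_algEquiv]
    exact h3
  -- by density, the same on all integral elements of the local level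
  have hr : ∀ y ∈ localLevel q L, ‖y‖ ≤ 1 → ‖r y - y‖ < 1 := by
    intro y hy hy1
    obtain ⟨x, hx⟩ := exists_norm_sub_lt q L hy one_pos
    have hx1 : ‖iotaL q L x‖ ≤ 1 := by
      have : iotaL q L x = y - (y - iotaL q L x) := by ring
      rw [this]
      have hneg : ‖-(y - iotaL q L x)‖ ≤ 1 := by rw [norm_neg]; exact hx.le
      have h3 : ‖y + -(y - iotaL q L x)‖ ≤ 1 := norm_add_le_one q hy1 hneg
      rwa [← sub_eq_add_neg] at h3
    have h1 := hr0 x hx1
    have e : r y - y = (r (y - iotaL q L x) + (r (iotaL q L x) - iotaL q L x)) -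
        (y - iotaL q L x) := by
      rw [map_sub]; ring
    rw [e]
    apply norm_sub_lt_one q _ hx
    apply norm_add_lt_one q _ h1
    rw [norm_algEquiv]
    exact hx
  have hfix := mem_fixingSubgroup_localLevel_of_norm_sub_lt h r hr
  have hker : r ∈ (locHom q L).ker := by
    rw [Fermat.Agent.S55.Idele73.Local.ker_locHom]
    exact hfix
  rw [MonoidHom.mem_ker, hrdef, map_mul, map_inv, inv_mul_eq_one] at hker
  rw [frobL_eq_locHom, hker]

/-- **(U2)** an element acting as the `q`-Frobenius at the place `g` is `g⁻¹ frobL g`. -/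
theorem conj_eq_frobL [FiniteDimensional ℚ L] (h : IsUnrAt q L) (g σ : GalL L)
    (hσ : ∀ y : L, ‖iotaL q L (g y)‖ ≤ 1 →
      ‖iotaL q L (g (σ y)) - iotaL q L (g y) ^ q‖ < 1) :
    g * σ * g⁻¹ = frobL q L := by
  apply eq_frobL_of_norm_sub_pow_lt h
  intro z hz
  have e1 : g (g⁻¹ z) = z := by
    rw [← AlgEquiv.mul_apply, mul_inv_cancel, AlgEquiv.one_apply]
  have h1 := hσ (g⁻¹ z) (by rw [e1]; exact hz)
  rw [e1] at h1
  rw [AlgEquiv.mul_apply, AlgEquiv.mul_apply]
  exact h1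

/-- **(U3)** the same with the hypothesis on the integers `𝓞 L` only:
`σ x - x ^ q ∈ primeAt q L g` for all `x : 𝓞 L` (an arithmetic Frobenius at the prime
`PlaceCount50.primeAt q L g`, residue cardinality `q`). -/
theorem conj_eq_frobL_of_primeAt [FiniteDimensional ℚ L] (h : IsUnrAt q L) (g σ : GalL L)
    (hσ : ∀ x : 𝓞 L, ‖iotaL q L (g (σ (x : L) - (x : L) ^ q))‖ < 1) :
    g * σ * g⁻¹ = frobL q L := by
  haveI : NumberField L := NumberField.of_module_finite ℚ L
  apply conj_eq_frobL h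
  intro y hy
  -- write `y = n / d` with `n d : 𝓞 L`, `d` a unit at the place
  have hv : (Fermat.Agent.S55.PlaceCount50.primeAt q L g).valuation L y ≤ 1 :=
    (Fermat.Agent.S55.PlaceCount50.valuation_primeAt_le_one_iff q L g y).2 hy
  obtain ⟨n, d, hnd⟩ := HeightOneSpectrum.exists_primeCompl_mul_eq_of_integer
    (Fermat.Agent.S55.PlaceCount50.primeAt q L g) y hv
  have hd1 : ‖iotaL q L (g ((d : 𝓞 L) : L))‖ = 1 :=
    Fermat.Agent.S55.PlaceCount50.norm_eq_one_of_notMem (Fermat.Agent.S55.PlaceCount50.embAt q L g)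
      d.2
  have hn1 : ‖iotaL q L (g ((n : 𝓞 L) : L))‖ ≤ 1 :=
    Fermat.Agent.S55.PlaceCount50.norm_le_one_of_int (Fermat.Agent.S55.PlaceCount50.embAt q L g) n
  set ι : L →+* PadicAlgCl q := (iotaL q L).comp (g : L →+* L) with hι
  have hιapp : ∀ x : L, ι x = iotaL q L (g x) := fun x => rfl
  have hyd : y * ((d : 𝓞 L) : L) = ((n : 𝓞 L) : L) := hnd
  set D : L := ((d : 𝓞 L) : L) with hD
  set N : L := ((n : 𝓞 L) : L) with hN
  have hD0 : D ≠ 0 := by
    intro h0
    rw [h0, map_zero, map_zero, norm_zero] at hd1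
    exact zero_ne_one hd1
  have hσD := hσ d
  have hσN := hσ n
  rw [← hD] at hσD
  rw [← hN] at hσN
  -- `‖ι (σ D)‖ = 1`
  have hσD1 : ‖ι (σ D)‖ = 1 := by
    have e : ι (σ D) = ι (σ D - D ^ q) + ι D ^ q := by
      rw [map_sub, map_pow]; ring
    have h2 : ‖ι D ^ q‖ = 1 := by rw [norm_pow, hιapp, hd1, one_pow]
    have h3 : ‖ι (σ D - D ^ q)‖ < ‖ι D ^ q‖ := by rw [h2]; exact hσD
    rw [e, add_comm, IsUltrametricDist.norm_add_eq_max_of_norm_ne_norm (ne_of_gt h3),
      max_eq_left h3.le, h2]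
  -- the key identity
  have key : (ι (σ y) - ι y ^ q) * (ι (σ D) * ι D ^ q) =
      ι (σ N - N ^ q) * ι D ^ q - ι N ^ q * ι (σ D - D ^ q) := by
    have e1 : ι (σ y) * ι (σ D) = ι (σ N) := by
      rw [← map_mul, ← map_mul, hyd]
    have e2 : ι y ^ q * ι D ^ q = ι N ^ q := by
      rw [← mul_pow, ← map_mul, hyd]
    rw [map_sub, map_sub, map_pow, map_pow]
    linear_combination (ι D ^ q) * e1 - (ι (σ D)) * e2
  have hrhs : ‖ι (σ N - N ^ q) * ι D ^ q - ι N ^ q * ι (σ D - D ^ q)‖ < 1 := by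
    apply norm_sub_lt_one q
    · rw [norm_mul, norm_pow, hιapp D, hd1, one_pow, mul_one]
      exact hσN
    · rw [norm_mul, norm_pow]
      calc ‖ι N‖ ^ q * ‖ι (σ D - D ^ q)‖ ≤ 1 * ‖ι (σ D - D ^ q)‖ := by
            apply mul_le_mul_of_nonneg_right _ (norm_nonneg _)
            exact pow_le_one₀ (norm_nonneg _) hn1
        _ < 1 := by rw [one_mul]; exact hσD
  rw [← key, norm_mul, norm_mul, hσD1, norm_pow, hιapp D, hd1, one_pow, mul_one, mul_one] at hrhs
  exact hrhs

end Fermat.Agent.S55.FrobFin98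

namespace Fermat.Agent.S55.FrobFin98

open Fermat.Agent.S55.Idele73.Basic
open NumberField IsDedekindDomain

variable {q : ℕ} [Fact q.Prime] {L : IntermediateField ℚ Qbar} [Normal ℚ L]

/-- **(U3')** ideal form: `σ x - x ^ q ∈ primeAt q L g` for all `x : 𝓞 L` (with `σ` acting on
`𝓞 L` through `galRestrict`) implies `g σ g⁻¹ = frobL q L`. -/
theorem conj_eq_frobL_of_mem_primeAt [FiniteDimensional ℚ L] (h : IsUnrAt q L) (g σ : GalL L)
    (hσ : ∀ x : 𝓞 L, galRestrict ℤ ℚ L (𝓞 L) σ x - x ^ q ∈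
      (Fermat.Agent.S55.PlaceCount50.primeAt q L g).asIdeal) :
    g * σ * g⁻¹ = frobL q L := by
  apply conj_eq_frobL_of_primeAt h
  intro x
  have h1 := (Fermat.Agent.S55.PlaceCount50.mem_primeAt_iff q L g _).1 (hσ x)
  have e : ((galRestrict ℤ ℚ L (𝓞 L) σ x - x ^ q : 𝓞 L) : L) = σ (x : L) - (x : L) ^ q := by
    have h2 : ((galRestrict ℤ ℚ L (𝓞 L) σ x : 𝓞 L) : L) = σ (x : L) :=
      algebraMap_galRestrict_apply ℤ σ x
    rw [← h2]
    rfl
  rw [e] at h1
  exact h1

end Fermat.Agent.S55.FrobFin98
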